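import Mathlib.NumberTheory.EllipticDivisibilitySequence
import Mathlib.RingTheory.MvPolynomial.Basic
import Mathlib.Algebra.MvPolynomial.CommRing
import Mathlib.Algebra.Ring.Parity

/-!
# Normalised elliptic divisibility sequences are elliptic nets

We prove that `normEDS b c d` satisfies the four-index elliptic relation over every commutative
ring, and deduce the Somos-4 relation and its first integral.
-/

namespace FLTAgent.Torsion

open IsEllipticNet

section Plucker

variable {R : Type*} [CommRing R] {W : ℤ → R}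

/-- The base pair attached to a parity class. -/
def pinC (a : ℤ) : ℤ := if Even a then 2 else 3

/-- The base pair attached to a parity class. -/
def pinD (a : ℤ) : ℤ := if Even a then 0 else 1

lemma atomRel_swap₁₂ (odd : W.Odd) (a b c d : ℤ) :
    atomRel W b a c d = -atomRel W a b c d := by
  simp only [atomRel, ← neg_atom odd a b]
  ring

/-- If all pinned relators among four indices vanish, then so does their relator. -/
lemma pin_sq_mul_atomRel (c₀ d₀ a b c d : ℤ)
    (hab : atomRel W a b c₀ d₀ = 0) (hcd : atomRel W c d c₀ d₀ = 0)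
    (hac : atomRel W a c c₀ d₀ = 0) (hbd : atomRel W b d c₀ d₀ = 0)
    (had : atomRel W a d c₀ d₀ = 0) (hbc : atomRel W b c c₀ d₀ = 0) :
    atom W c₀ d₀ ^ 2 * atomRel W a b c d = 0 := by
  have key : ∀ x y, atomRel W x y c₀ d₀ = 0 →
      atom W c₀ d₀ * atom W x y =
        atom W x c₀ * atom W y d₀ - atom W x d₀ * atom W y c₀ := by
    intro x y h
    rw [atomRel] at h
    linear_combination h
  have hsplit : atom W c₀ d₀ ^ 2 * atomRel W a b c d =
      (atom W c₀ d₀ * atom W a b) * (atom W c₀ d₀ * atom W c d) -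
        (atom W c₀ d₀ * atom W a c) * (atom W c₀ d₀ * atom W b d) +
          (atom W c₀ d₀ * atom W a d) * (atom W c₀ d₀ * atom W b c) := by
    rw [atomRel]; ring
  rw [hsplit, key _ _ hab, key _ _ hcd, key _ _ hac, key _ _ hbd, key _ _ had, key _ _ hbc]
  ring

end Plucker

section Domain

variable {R : Type*} [CommRing R] [IsDomain R] {W : ℤ → R}

/-- A sequence satisfying the even and odd recursions is an elliptic net. -/
theorem isEllipticNet_of_rec (odd : W.Odd) (h0 : W 0 = 0) (h1 : W 1 = 1) (h2 : W 2 ≠ 0)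
    (heven : ∀ m : ℤ, rel W (m + 1) (m - 1) 1 0 = 0)
    (hodd : ∀ m : ℤ, rel W (m + 1) m 1 0 = 0) : IsEllipticNet W := by
  have hpin : ∀ a : ℤ, atom W (pinC a) (pinD a) ≠ 0 := by
    intro a
    unfold pinC pinD
    split_ifs
    · rw [show (2 : ℤ) = 2 * 1 from rfl, show (0 : ℤ) = 2 * 0 from rfl, atom_even]
      simp [h1]
    · show W 2 * W 1 ≠ 0
      simpa [h1] using h2
  have full : ∀ N : ℕ, (∀ a b : ℤ, a.natAbs ≤ N → b.natAbs ≤ N → a % 2 = b % 2 →
      atomRel W a b (pinC a) (pinD a) = 0) →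
      ∀ a b c d : ℤ, a.natAbs ≤ N → b.natAbs ≤ N → c.natAbs ≤ N → d.natAbs ≤ N →
      a % 2 = b % 2 → a % 2 = c % 2 → a % 2 = d % 2 → atomRel W a b c d = 0 := by
    intro N hP a b c d ha hb hc hd hab hac had
    have e : ∀ x : ℤ, a % 2 = x % 2 → pinC x = pinC a ∧ pinD x = pinD a := by
      intro x hx
      simp [pinC, pinD, Int.even_iff, hx]
    have p : ∀ x y : ℤ, x.natAbs ≤ N → y.natAbs ≤ N → a % 2 = x % 2 → a % 2 = y % 2 →
        atomRel W x y (pinC a) (pinD a) = 0 := fun x y hx hy hx' hy' =>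
      (e x hx').1 ▸ (e x hx').2 ▸ hP x y hx hy (hx'.symm.trans hy')
    refine (mul_eq_zero.mp (pin_sq_mul_atomRel (W := W) (pinC a) (pinD a) a b c d
      (p a b ha hb rfl hab) (p c d hc hd hac had) (p a c ha hc rfl hac)
      (p b d hb hd hab had) (p a d ha hd rfl had) (p b c hb hc hab hac))).resolve_left ?_
    exact pow_ne_zero 2 (hpin a)
  have base : ∀ N : ℕ, ∀ a b : ℤ, a.natAbs ≤ N → b.natAbs ≤ N → a % 2 = b % 2 →
      atomRel W a b (pinC a) (pinD a) = 0 := by
    intro N
    induction N using Nat.strong_induction_on with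
    | h N IH =>
    suffices key : ∀ a b : ℤ, 0 ≤ b → b ≤ a → a ≤ N → a % 2 = b % 2 →
        atomRel W a b (pinC a) (pinD a) = 0 by
      intro a b ha hb hab
      have hpa : |a| % 2 = a % 2 := by rcases abs_choice a with h | h <;> omega
      have hpb : |b| % 2 = b % 2 := by rcases abs_choice b with h | h <;> omega
      have hla : |a| ≤ N := abs_le.mpr (by omega)
      have hlb : |b| ≤ N := abs_le.mpr (by omega)
      have hc : pinC a = pinC |a| ∧ pinD a = pinD |a| := by simp [pinC, pinD, Int.even_iff, hpa]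
      have hpar : |a| % 2 = |b| % 2 := by omega
      rw [← atomRel_abs₁ odd, ← atomRel_abs₂ odd, hc.1, hc.2]
      rcases le_total |b| |a| with h | h
      · exact key _ _ (abs_nonneg b) h hla hpar
      · have hc' : pinC |a| = pinC |b| ∧ pinD |a| = pinD |b| := by
          simp [pinC, pinD, Int.even_iff, hpar]
        rw [hc'.1, hc'.2, atomRel_swap₁₂ odd,
          key _ _ (abs_nonneg a) h hlb hpar.symm, neg_zero]
    intro a b hb0 hba haN hab
    have hcd : (pinC a = 2 ∧ pinD a = 0 ∧ a % 2 = 0) ∨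
        (pinC a = 3 ∧ pinD a = 1 ∧ a % 2 = 1) := by
      rcases Int.emod_two_eq_zero_or_one a with h | h <;> simp [pinC, pinD, Int.even_iff, h]
    rcases eq_or_lt_of_le hba with rfl | hlt
    · simp [atomRel_same₁₂, h0]
    by_cases hbc : b = pinC a
    · rw [hbc, atomRel_same₂₃, h0]; ring
    by_cases hbd : b = pinD a
    · rw [hbd, atomRel_same₂₄ odd, h0]; ring
    by_cases hstep : a = b + 2
    · rcases hcd with ⟨hC, hD, hp⟩ | ⟨hC, hD, hp⟩
      · obtain ⟨m, rfl⟩ : ∃ m, b = 2 * m := ⟨b / 2, by omega⟩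
        have := hodd m
        rw [rel_eq] at this
        rw [hC, hD, hstep]
        ring_nf at this ⊢
        exact this
      · obtain ⟨m, rfl⟩ : ∃ m, b = 2 * (m - 1) + 1 := ⟨(b + 1) / 2, by omega⟩
        have h' : rel W m (m - 1) 1 1 = 0 := by
          have := heven m
          rw [rel] at this ⊢
          ring_nf at this ⊢
          simp only [h1, one_pow, mul_one] at this ⊢
          linear_combination this
        rw [rel_eq] at h'
        rw [hC, hD, hstep]
        ring_nf at h' ⊢
        exact h'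
    have hNpos : 1 ≤ N := by omega
    have hpar : pinD a % 2 = a % 2 ∧ pinD a % 2 = b % 2 ∧ pinD a % 2 = pinC a % 2 := by
      rcases hcd with ⟨hC, hD, hp⟩ | ⟨hC, hD, hp⟩ <;> omega
    rw [← atomRel_avg_sub W hpar]
    rcases hcd with ⟨hC, hD, hp⟩ | ⟨hC, hD, hp⟩ <;>
      exact full (N - 1) (IH (N - 1) (by omega)) _ _ _ _ (by omega) (by omega) (by omega)
        (by omega) (by omega) (by omega) (by omega)
  intro p q r s
  rw [rel_eq]
  let N := max (max (2 * p + s).natAbs (2 * q + s).natAbs) (max (2 * r + s).natAbs s.natAbs)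
  exact full N (base N) _ _ _ _ (le_max_of_le_left (le_max_left _ _))
    (le_max_of_le_left (le_max_right _ _)) (le_max_of_le_right (le_max_left _ _))
    (le_max_of_le_right (le_max_right _ _)) (by omega) (by omega) (by omega)

lemma isEllipticNet_normEDS_of_ne_zero {b : R} (hb : b ≠ 0) (c d : R) :
    IsEllipticNet (normEDS b c d) := by
  refine isEllipticNet_of_rec (normEDS_neg b c d) (normEDS_zero ..) (normEDS_one ..)
    (by rwa [normEDS_two]) (fun m => ?_) (fun m => ?_)
  · rw [rel_even, normEDS_one, normEDS_two]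
    linear_combination normEDS_even b c d m
  · rw [rel_odd, normEDS_one]
    linear_combination normEDS_odd b c d m

end Domain

section Universal

variable {R : Type*} [CommRing R]

/-- `normEDS` is an elliptic net over every commutative ring. -/
theorem isEllipticNet_normEDS (b c d : R) : IsEllipticNet (normEDS b c d) := by
  intro p q r s
  let U : Fin 3 → MvPolynomial (Fin 3) ℤ := MvPolynomial.X
  let f : MvPolynomial (Fin 3) ℤ →+* R :=
    MvPolynomial.eval₂Hom (Int.castRingHom R) ![b, c, d]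
  have hf : f ∘ normEDS (U 0) (U 1) (U 2) = normEDS b c d := by
    funext n
    rw [Function.comp_apply, map_normEDS]
    simp [f, U]
  have := congrArg f (isEllipticNet_normEDS_of_ne_zero (b := U 0) (MvPolynomial.X_ne_zero (0 : Fin 3))
    (U 1) (U 2) p q r s)
  rw [IsEllipticNet.map_rel, map_zero] at this
  rwa [hf] at this

variable (b c d : R)

/-- The Somos-4 relation. -/
theorem normEDS_somos (k : ℤ) :
    normEDS b c d (k + 2) * normEDS b c d (k - 2) =
      b ^ 2 * normEDS b c d (k + 1) * normEDS b c d (k - 1) - c * normEDS b c d k ^ 2 := by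
  have := isEllipticNet_normEDS b c d k 2 1 0
  simp only [rel, add_zero, normEDS_one, normEDS_two, show (2 : ℤ) + 1 = 3 from rfl,
    show (2 : ℤ) - 1 = 1 from rfl, normEDS_three] at this
  linear_combination this

/-- `normEDS 2 3 2` is the identity sequence. -/
theorem normEDS_two_three_two (n : ℕ) : normEDS (2 : ℤ) 3 2 n = n := by
  induction n using normEDSRec with
  | zero => simp
  | one => simp
  | two => simp
  | three => simp
  | four => simp
  | even m h1 h2 h3 h4 h5 =>
    have := normEDS_even (2 : ℤ) 3 2 ((m : ℤ) + 3)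
    push_cast at h1 h2 h3 h4 h5 ⊢
    rw [show (m : ℤ) + 3 - 1 = m + 2 by ring, show (m : ℤ) + 3 - 2 = m + 1 by ring,
      show (m : ℤ) + 3 + 2 = m + 5 by ring, show (m : ℤ) + 3 + 1 = m + 4 by ring,
      h1, h2, h3, h4, h5] at this
    apply mul_right_cancel₀ (two_ne_zero (α := ℤ))
    linear_combination this
  | odd m h1 h2 h3 h4 =>
    have := normEDS_odd (2 : ℤ) 3 2 ((m : ℤ) + 2)
    push_cast at h1 h2 h3 h4 ⊢
    rw [show (m : ℤ) + 2 - 1 = m + 1 by ring, show (m : ℤ) + 2 + 2 = m + 4 by ring,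
      show (m : ℤ) + 2 + 1 = m + 3 by ring, h1, h2, h3, h4] at this
    linear_combination this

/-- The first integral of the Somos-4 recursion. -/
theorem normEDS_invariant (B : R) (m : ℤ) :
    normEDS b c (B * c - b ^ 4) (m + 2) * normEDS b c (B * c - b ^ 4) (m - 1) ^ 2 +
      normEDS b c (B * c - b ^ 4) (m - 2) * normEDS b c (B * c - b ^ 4) (m + 1) ^ 2 +
        b ^ 2 * normEDS b c (B * c - b ^ 4) m ^ 3 =
      B * normEDS b c (B * c - b ^ 4) (m + 1) * normEDS b c (B * c - b ^ 4) m *
        normEDS b c (B * c - b ^ 4) (m - 1) := by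
  let b' : MvPolynomial (Fin 3) ℤ := MvPolynomial.X 0
  let c' : MvPolynomial (Fin 3) ℤ := MvPolynomial.X 1
  let B' : MvPolynomial (Fin 3) ℤ := MvPolynomial.X 2
  let w : ℤ → MvPolynomial (Fin 3) ℤ := normEDS b' c' (B' * c' - b' ^ 4)
  have hne : ∀ n : ℕ, n ≠ 0 → w n ≠ 0 := by
    intro n hn h
    have := congrArg (MvPolynomial.eval₂Hom (Int.castRingHom ℤ) ![2, 3, 6]) h
    simp only [w, map_normEDS, map_sub, map_mul, map_pow, map_zero, b', c', B',
      MvPolynomial.eval₂Hom_X'] at this
    rw [show (![2, 3, 6] : Fin 3 → ℤ) 2 * (![2, 3, 6] : Fin 3 → ℤ) 1 -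
      (![2, 3, 6] : Fin 3 → ℤ) 0 ^ 4 = 2 from rfl] at this
    rw [show (![2, 3, 6] : Fin 3 → ℤ) 0 = 2 from rfl, show (![2, 3, 6] : Fin 3 → ℤ) 1 = 3 from rfl,
      normEDS_two_three_two] at this
    exact hn (by exact_mod_cast this)
  have nat : ∀ k : ℕ, w ((k : ℤ) + 2) * w ((k : ℤ) - 1) ^ 2 + w ((k : ℤ) - 2) * w ((k : ℤ) + 1) ^ 2
      + b' ^ 2 * w k ^ 3 = B' * w ((k : ℤ) + 1) * w k * w ((k : ℤ) - 1) := by
    intro k
    induction k using Nat.strong_induction_on with
    | h k IH =>
    rcases k with _ | _ | _ | k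
    · simp [w]
    · simp [w]
    · simp [w]; ring
    · have ih := IH (k + 2) (by omega)
      have s1 := normEDS_somos b' c' (B' * c' - b' ^ 4) ((k : ℤ) + 2)
      have s2 := normEDS_somos b' c' (B' * c' - b' ^ 4) ((k : ℤ) + 3)
      apply mul_left_cancel₀ (hne (k + 1) (by omega))
      push_cast at ih ⊢
      rw [show w = normEDS b' c' (B' * c' - b' ^ 4) from rfl] at ih ⊢
      ring_nf at ih s1 s2 ⊢
      linear_combination normEDS b' c' (B' * c' - b' ^ 4) (4 + k) * ih
        + normEDS b' c' (B' * c' - b' ^ 4) (2 + k) ^ 2 * s2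
        - normEDS b' c' (B' * c' - b' ^ 4) (3 + k) ^ 2 * s1
  have univ : ∀ k : ℤ, w (k + 2) * w (k - 1) ^ 2 + w (k - 2) * w (k + 1) ^ 2 + b' ^ 2 * w k ^ 3 =
      B' * w (k + 1) * w k * w (k - 1) := by
    intro k
    obtain ⟨n, rfl | rfl⟩ := k.eq_nat_or_neg
    · exact nat n
    · have := nat n
      simp only [w] at this ⊢
      rw [show -(n : ℤ) + 2 = -((n : ℤ) - 2) by ring, show -(n : ℤ) - 1 = -((n : ℤ) + 1) by ring,
        show -(n : ℤ) - 2 = -((n : ℤ) + 2) by ring, show -(n : ℤ) + 1 = -((n : ℤ) - 1) by ring]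
      simp only [normEDS_neg]
      linear_combination (-1 : MvPolynomial (Fin 3) ℤ) * this
  have := congrArg (MvPolynomial.eval₂Hom (Int.castRingHom R) ![b, c, B]) (univ m)
  simp only [w, map_normEDS, map_add, map_sub, map_mul, map_pow, b', c', B',
    MvPolynomial.eval₂Hom_X'] at this
  exact this

end Universal

end FLTAgent.Torsion
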