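import Mathlib.AlgebraicGeometry.EllipticCurve.DivisionPolynomial.Basic
import Fermat.Agent.Torsion.EDSNet

/-!
# The multiplication formula on a Weierstrass curve

For a nonsingular point `P = (x, y)` over a field and `n : ℤ`, we show `n • P = 0` if and only if
`ΨSqₙ(x) = 0`, and that otherwise the `X`-coordinate of `n • P` is `Φₙ(x) / ΨSqₙ(x)`.
No ellipticity assumption is needed.
-/

namespace FLTAgent.Torsion

open Polynomial WeierstrassCurve
open scoped Polynomial.Bivariate

variable {K : Type*} [Field K] {W : WeierstrassCurve.Affine K} {x y : K}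

/-- The value of `ψ₂` at a point. -/
noncomputable def psiTwoVal (W : WeierstrassCurve.Affine K) (x y : K) : K :=
  2 * y + W.a₁ * x + W.a₃

/-- The value of the derivative `6x² + b₂x + b₄` of `Ψ₂Sq / 2`. -/
noncomputable def bigB (W : WeierstrassCurve.Affine K) (x : K) : K :=
  6 * x ^ 2 + W.b₂ * x + W.b₄

/-- The values at a point of the division polynomials. -/
noncomputable def psiVal (W : WeierstrassCurve.Affine K) (x y : K) : ℤ → K :=
  normEDS (psiTwoVal W x y) (W.Ψ₃.eval x) (W.preΨ₄.eval x)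

lemma psiTwoVal_eq_sub_negY : psiTwoVal W x y = y - W.negY x y := by
  simp only [psiTwoVal, Affine.negY]; ring

lemma evalEval_ψ₂_eq : W.ψ₂.evalEval x y = psiTwoVal W x y := by
  rw [ψ₂, Affine.evalEval_polynomialY, psiTwoVal]

lemma evalEval_ψ_eq (n : ℤ) : (W.ψ n).evalEval x y = psiVal W x y n := by
  rw [psiVal, ← evalEval_ψ₂_eq]
  change evalEvalRingHom x y (W.ψ n) = _
  rw [WeierstrassCurve.ψ, map_normEDS]
  simp

lemma eval_Ψ₃_eq : W.Ψ₃.eval x =
    3 * x ^ 4 + W.b₂ * x ^ 3 + 3 * W.b₄ * x ^ 2 + 3 * W.b₆ * x + W.b₈ := by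
  simp [Ψ₃]

lemma sq_psiTwoVal (h : W.Equation x y) : psiTwoVal W x y ^ 2 = W.Ψ₂Sq.eval x := by
  rw [Affine.equation_iff] at h
  simp only [Ψ₂Sq, psiTwoVal, b₂, b₄, b₆, eval_add, eval_mul, eval_C, eval_pow, eval_X]
  linear_combination 4 * h

lemma eval_preΨ₄_eq (h : W.Equation x y) :
    W.preΨ₄.eval x = bigB W x * W.Ψ₃.eval x - psiTwoVal W x y ^ 4 := by
  rw [show psiTwoVal W x y ^ 4 = (psiTwoVal W x y ^ 2) ^ 2 by ring, sq_psiTwoVal h]
  simp only [preΨ₄, Ψ₂Sq, eval_Ψ₃_eq, bigB, eval_add, eval_mul, eval_C, eval_pow, eval_X,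
    eval_ofNat]
  linear_combination (x ^ 2) * W.b_relation

lemma eval_Ψ₃_eq_tangent (h : W.Equation x y) :
    W.Ψ₃.eval x = (3 * x + W.a₂) * psiTwoVal W x y ^ 2
      - W.a₁ * psiTwoVal W x y * (3 * x ^ 2 + 2 * W.a₂ * x + W.a₄ - W.a₁ * y)
      - (3 * x ^ 2 + 2 * W.a₂ * x + W.a₄ - W.a₁ * y) ^ 2 := by
  rw [Affine.equation_iff] at h
  simp only [eval_Ψ₃_eq, psiTwoVal, b₂, b₄, b₆, b₈]
  linear_combination -(12 * x + W.a₁ ^ 2 + 4 * W.a₂) * h

/-- At a nonsingular point, `ψ₂` and `ψ₃` do not vanish simultaneously. -/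
lemma eval_Ψ₃_ne_zero (h : W.Nonsingular x y) (hb : psiTwoVal W x y = 0) :
    W.Ψ₃.eval x ≠ 0 := by
  intro hc
  have hl : 3 * x ^ 2 + 2 * W.a₂ * x + W.a₄ - W.a₁ * y = 0 := by
    have := eval_Ψ₃_eq_tangent h.1
    rw [hc, hb] at this
    exact pow_eq_zero_iff two_ne_zero |>.mp (by linear_combination this)
  have hns := ((Affine.nonsingular_iff x y).mp h).2
  rcases hns with h' | h'
  · exact h' (by linear_combination -hl)
  · exact h' (by rw [psiTwoVal] at hb; linear_combination hb)

section Identities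

lemma psiVal_somos (k : ℤ) :
    psiVal W x y (k + 2) * psiVal W x y (k - 2) =
      psiTwoVal W x y ^ 2 * psiVal W x y (k + 1) * psiVal W x y (k - 1) -
        W.Ψ₃.eval x * psiVal W x y k ^ 2 :=
  normEDS_somos _ _ _ k

lemma psiVal_invariant (h : W.Equation x y) (k : ℤ) :
    psiVal W x y (k + 2) * psiVal W x y (k - 1) ^ 2 +
      psiVal W x y (k - 2) * psiVal W x y (k + 1) ^ 2 +
        psiTwoVal W x y ^ 2 * psiVal W x y k ^ 3 =
      bigB W x * psiVal W x y (k + 1) * psiVal W x y k * psiVal W x y (k - 1) := by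
  rw [psiVal, eval_preΨ₄_eq h]
  exact normEDS_invariant _ _ _ k

@[simp] lemma psiVal_zero : psiVal W x y 0 = 0 := normEDS_zero ..
@[simp] lemma psiVal_one : psiVal W x y 1 = 1 := normEDS_one ..
lemma psiVal_two : psiVal W x y 2 = psiTwoVal W x y := normEDS_two ..
lemma psiVal_neg (n : ℤ) : psiVal W x y (-n) = -psiVal W x y n := normEDS_neg ..

/-- Two consecutive division polynomials do not vanish at a nonsingular point. -/
theorem psiVal_succ_ne_zero (h : W.Nonsingular x y) :
    ∀ n : ℕ, psiVal W x y n = 0 → psiVal W x y (n + 1) ≠ 0 := by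
  intro n
  induction n with
  | zero => intro _; simp
  | succ n ih =>
    intro h0 h1
    push_cast at h0 h1
    have hn : psiVal W x y n ≠ 0 := fun hh => ih hh h0
    have hc : W.Ψ₃.eval x = 0 := by
      have := psiVal_somos (W := W) (x := x) (y := y) n
      rw [show (n : ℤ) + 2 = n + 1 + 1 by ring, h1, h0] at this
      exact (mul_eq_zero.mp (show W.Ψ₃.eval x * psiVal W x y n ^ 2 = 0 by
        linear_combination this)).resolve_right (pow_ne_zero 2 hn)
    have hb : psiTwoVal W x y = 0 := by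
      have := psiVal_invariant h.1 (n : ℤ)
      rw [show (n : ℤ) + 2 = n + 1 + 1 by ring, h1, h0] at this
      have : psiTwoVal W x y ^ 2 * psiVal W x y n ^ 3 = 0 := by linear_combination this
      exact pow_eq_zero_iff two_ne_zero |>.mp
        ((mul_eq_zero.mp this).resolve_right (pow_ne_zero 3 hn))
    exact eval_Ψ₃_ne_zero h hb hc

end Identities

variable [DecidableEq K]

/-- `(x - x(Q + P)) + (x - x(Q - P))` in terms of `x(Q)` and `x = x(P)`. -/
lemma sub_addX_add_sub_addX {xq yq : K} (hP : W.Equation x y) (hQ : W.Equation xq yq)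
    (hx : xq ≠ x) :
    ((x - W.addX xq x (W.slope xq x yq y)) + (x - W.addX xq x (W.slope xq x yq (W.negY x y)))) *
        (x - xq) ^ 2 = bigB W x * (x - xq) - psiTwoVal W x y ^ 2 := by
  rw [Affine.slope_of_X_ne hx, Affine.slope_of_X_ne hx]
  have hd : xq - x ≠ 0 := sub_ne_zero.mpr hx
  rw [Affine.equation_iff] at hP hQ
  simp only [Affine.addX, Affine.negY, bigB, psiTwoVal, b₂, b₄]
  field_simp
  linear_combination (-2 * (xq - x) ^ 2) * hQ + 2 * (xq - x) ^ 2 * hP

/-- The statement proved by induction. -/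
def MulSpec (W : WeierstrassCurve.Affine K) {x y : K} (h : W.Nonsingular x y) (n : ℕ) : Prop :=
  (psiVal W x y n = 0 → n • Affine.Point.some x y h = 0) ∧
  (psiVal W x y n ≠ 0 → ∃ y' h', n • Affine.Point.some x y h = Affine.Point.some
    (x - psiVal W x y (n + 1) * psiVal W x y (n - 1) / psiVal W x y n ^ 2) y' h')

omit [DecidableEq K] in
lemma exists_some_congr {a a' b : K} (ha : W.Nonsingular a b) (e : a = a') :
    ∃ b' h', Affine.Point.some a b ha = Affine.Point.some a' b' h' := by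
  subst e; exact ⟨b, ha, rfl⟩

theorem mulSpec (h : W.Nonsingular x y) : ∀ n : ℕ, MulSpec W h n := by
  intro n
  induction n using Nat.strong_induction_on with
  | h n IH =>
  rcases n with _ | _ | m
  · exact ⟨fun _ => zero_nsmul _, fun hh => absurd (by simp) hh⟩
  · refine ⟨fun hh => absurd hh (by simp), fun _ => ?_⟩
    rw [one_nsmul]
    exact exists_some_congr h (by simp)
  set P := Affine.Point.some x y h with hPdef
  obtain ⟨h0z, h0s⟩ := IH m (by omega)
  obtain ⟨h1z, h1s⟩ := IH (m + 1) (by omega)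
  set N : ℤ := (m : ℤ) with hN
  have e1 : ((m + 1 : ℕ) : ℤ) = N + 1 := by push_cast; rfl
  have e2 : ((m + 1 + 1 : ℕ) : ℤ) = N + 2 := by push_cast; ring
  have hadd : (m + 1 + 1) • P = (m + 1) • P + P := succ_nsmul P (m + 1)
  have hadd' : (m + 1) • P = m • P + P := succ_nsmul P m
  rw [MulSpec, ← hPdef, hadd, e2]
  rw [e1] at h1z h1s
  simp only [add_sub_cancel_right, show N + 1 + 1 = N + 2 by ring] at h1s
  rw [show N + 2 + 1 = N + 3 by ring, show N + 2 - 1 = N + 1 by ring]
  by_cases hm1 : psiVal W x y (N + 1) = 0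
  · -- `(m + 1) • P = 0`
    have hne := psiVal_succ_ne_zero h (m + 1) (by rwa [e1])
    rw [e1, show N + 1 + 1 = N + 2 by ring] at hne
    refine ⟨fun hh => absurd hh hne, fun _ => ?_⟩
    rw [h1z hm1, zero_add]
    exact exists_some_congr h (by rw [hm1]; simp)
  obtain ⟨ym, hym, hmP⟩ := h1s hm1
  by_cases hm0 : psiVal W x y N = 0
  · -- `(m + 1) • P = P`
    have hP1 : (m + 1) • P = P := by rw [hadd', h0z hm0, zero_add]
    rw [hP1]
    have hprev : psiVal W x y (N - 1) ≠ 0 := by
      rcases m with _ | m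
      · simp [hN, psiVal_neg]
      · intro hh
        have := psiVal_succ_ne_zero h m (by rw [← hh]; congr 1; simp [hN])
        exact this (by rw [← hm0]; congr 1)
    have t := psiVal_invariant h.1 N
    have s := psiVal_somos (W := W) (x := x) (y := y) N
    have s' := psiVal_somos (W := W) (x := x) (y := y) (N + 1)
    rw [hm0] at t s
    rw [show N + 1 - 2 = N - 1 by ring, show N + 1 + 1 = N + 2 by ring, add_sub_cancel_right,
      show N + 1 + 2 = N + 3 by ring, hm0] at s'
    have key : psiVal W x y (N + 2) ^ 2 * psiVal W x y (N - 1) =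
        -((psiTwoVal W x y) ^ 2 * psiVal W x y (N + 1) ^ 3) := by
      apply mul_right_cancel₀ hprev
      linear_combination psiVal W x y (N + 2) * t - psiVal W x y (N + 1) ^ 2 * s
    constructor
    · intro hh
      have hb : (psiTwoVal W x y) = 0 := by
        rw [hh] at key
        have : (psiTwoVal W x y) ^ 2 * psiVal W x y (N + 1) ^ 3 = 0 := by linear_combination key
        exact pow_eq_zero_iff two_ne_zero |>.mp
          ((mul_eq_zero.mp this).resolve_right (pow_ne_zero 3 hm1))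
      exact Affine.Point.add_self_of_Y_eq (by
        rw [← sub_eq_zero, ← psiTwoVal_eq_sub_negY]; exact hb)
    · intro hh
      have hb : (psiTwoVal W x y) ≠ 0 := by
        intro hb
        have := key
        rw [hb] at this
        have := mul_eq_zero.mp (show psiVal W x y (N + 2) ^ 2 * psiVal W x y (N - 1) = 0 by
          linear_combination this)
        exact hh (pow_eq_zero_iff two_ne_zero |>.mp (this.resolve_right hprev))
      have hy : y ≠ W.negY x y := fun e => hb (by
        show psiTwoVal W x y = 0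
        rw [psiTwoVal_eq_sub_negY, ← e, sub_self])
      rw [Affine.Point.add_self_of_Y_ne hy]
      refine exists_some_congr _ ?_
      have hval : psiVal W x y (N + 3) * psiVal W x y (N + 1) * (psiTwoVal W x y) ^ 2 =
          W.Ψ₃.eval x * psiVal W x y (N + 2) ^ 2 := by
        apply mul_right_cancel₀ hprev
        linear_combination (psiTwoVal W x y) ^ 2 * psiVal W x y (N + 1) * s' - W.Ψ₃.eval x * key
      have hc := eval_Ψ₃_eq_tangent h.1
      have : psiVal W x y (N + 3) * psiVal W x y (N + 1) / psiVal W x y (N + 2) ^ 2 =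
          W.Ψ₃.eval x / (psiTwoVal W x y) ^ 2 := by
        rw [div_eq_div_iff (pow_ne_zero 2 hh) (pow_ne_zero 2 hb)]
        exact hval
      rw [this, hc, Affine.slope_of_Y_ne rfl hy, ← psiTwoVal_eq_sub_negY]
      simp only [Affine.addX]
      field_simp
      ring
  obtain ⟨yp, hyp, hpP⟩ := h0s hm0
  rw [hmP]
  by_cases hm2 : psiVal W x y (N + 2) = 0
  · refine ⟨fun _ => ?_, fun hh => absurd hm2 hh⟩
    have hx : x - psiVal W x y (N + 2) * psiVal W x y N / psiVal W x y (N + 1) ^ 2 = x := by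
      rw [hm2]; simp
    rcases (Affine.Point.X_eq_iff (h₁ := hym) (h₂ := h)).mp hx with e | e
    · exfalso
      have : m • P = 0 := by
        have := hmP.trans e
        rwa [hadd', ← hPdef, add_eq_right] at this
      exact Affine.Point.some_ne_zero hyp (hpP.symm.trans this)
    · rw [e, neg_add_cancel]
  refine ⟨fun hh => absurd hh hm2, fun _ => ?_⟩
  have hxne : x - psiVal W x y (N + 2) * psiVal W x y N / psiVal W x y (N + 1) ^ 2 ≠ x := by
    intro e
    have : psiVal W x y (N + 2) * psiVal W x y N / psiVal W x y (N + 1) ^ 2 = 0 := by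
      linear_combination -e
    simp [hm2, hm0, hm1] at this
  rw [Affine.Point.add_of_X_ne hxne]
  refine exists_some_congr _ ?_
  have hsub : m • P = (m + 1) • P + -P := by rw [hadd', add_neg_cancel_right]
  rw [hpP, hmP, Affine.Point.neg_some, Affine.Point.add_of_X_ne hxne] at hsub
  have hxm : x - psiVal W x y (N + 1) * psiVal W x y (N - 1) / psiVal W x y N ^ 2 =
      W.addX (x - psiVal W x y (N + 2) * psiVal W x y N / psiVal W x y (N + 1) ^ 2) x
        (W.slope (x - psiVal W x y (N + 2) * psiVal W x y N / psiVal W x y (N + 1) ^ 2) x ym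
          (W.negY x y)) := by
    injection hsub
  have hs := sub_addX_add_sub_addX h.1 hym.1 hxne
  have t := psiVal_invariant h.1 (N + 1)
  rw [show N + 1 + 2 = N + 3 by ring, add_sub_cancel_right, show N + 1 - 2 = N - 1 by ring,
    show N + 1 + 1 = N + 2 by ring] at t
  set a := psiVal W x y (N - 1)
  set p := psiVal W x y N
  set q := psiVal W x y (N + 1)
  set r := psiVal W x y (N + 2)
  set w := psiVal W x y (N + 3)
  rw [← hxm] at hs
  set X₃ := W.addX (x - r * p / q ^ 2) x (W.slope (x - r * p / q ^ 2) x ym y)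
  field_simp at hs ⊢
  apply mul_right_cancel₀ (pow_ne_zero 4 hm0)
  linear_combination -hs + q * p ^ 2 * t

/-- `n • P` vanishes iff `ψₙ(P) = 0`. -/
theorem zsmul_some_eq_zero_iff_psiVal (h : W.Nonsingular x y) (n : ℤ) :
    n • Affine.Point.some x y h = 0 ↔ psiVal W x y n = 0 := by
  suffices hnat : ∀ k : ℕ, (k • Affine.Point.some x y h = 0 ↔ psiVal W x y k = 0) by
    obtain ⟨k, rfl | rfl⟩ := n.eq_nat_or_neg
    · rw [natCast_zsmul]; exact hnat k
    · rw [neg_zsmul, natCast_zsmul, neg_eq_zero, psiVal_neg, neg_eq_zero]; exact hnat k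
  intro k
  refine ⟨fun hk => ?_, (mulSpec h k).1⟩
  by_contra hne
  obtain ⟨y', h', e⟩ := (mulSpec h k).2 hne
  exact Affine.Point.some_ne_zero h' (e.symm.trans hk)

omit [DecidableEq K] in
lemma eval_preΨ_eq (h : W.Equation x y) (n : ℤ) :
    psiVal W x y n = (W.preΨ n).eval x * if Even n then psiTwoVal W x y else 1 := by
  rw [psiVal, normEDS, preΨ]
  congr 1
  change _ = evalRingHom x (preNormEDS _ _ _ n)
  rw [map_preNormEDS]
  simp only [coe_evalRingHom, eval_pow, ← sq_psiTwoVal h]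
  ring_nf

omit [DecidableEq K] in
lemma eval_ΨSq_eq (h : W.Equation x y) (n : ℤ) : (W.ΨSq n).eval x = psiVal W x y n ^ 2 := by
  rw [eval_preΨ_eq h, ΨSq, eval_mul, eval_pow, mul_pow, ite_pow, one_pow, sq_psiTwoVal h]
  split_ifs <;> simp

omit [DecidableEq K] in
lemma eval_Φ_eq (h : W.Equation x y) (n : ℤ) : (W.Φ n).eval x =
    x * psiVal W x y n ^ 2 - psiVal W x y (n + 1) * psiVal W x y (n - 1) := by
  rw [← eval_ΨSq_eq h, eval_preΨ_eq h, eval_preΨ_eq h, WeierstrassCurve.Φ, eval_sub, eval_mul,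
    eval_mul, eval_mul, eval_X]
  simp only [Int.even_add_one, Int.even_sub_one, ite_not]
  split_ifs <;> simp [← sq_psiTwoVal h] <;> ring

/-- `n • P = 0` if and only if `ΨSqₙ(x) = 0`. -/
theorem zsmul_some_eq_zero_iff (h : W.Nonsingular x y) (n : ℤ) :
    n • Affine.Point.some x y h = 0 ↔ (W.ΨSq n).eval x = 0 := by
  rw [zsmul_some_eq_zero_iff_psiVal h, eval_ΨSq_eq h.1, pow_eq_zero_iff two_ne_zero]

/-- The `X`-coordinate of `n • P`. -/
theorem exists_zsmul_some_eq (h : W.Nonsingular x y) (n : ℤ) (hn : (W.ΨSq n).eval x ≠ 0) :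
    ∃ y' h', n • Affine.Point.some x y h =
      Affine.Point.some ((W.Φ n).eval x / (W.ΨSq n).eval x) y' h' := by
  suffices hnat : ∀ k : ℕ, (W.ΨSq k).eval x ≠ 0 → ∃ y' h', (k : ℤ) • Affine.Point.some x y h =
      Affine.Point.some ((W.Φ k).eval x / (W.ΨSq k).eval x) y' h' by
    obtain ⟨k, rfl | rfl⟩ := n.eq_nat_or_neg
    · exact hnat k hn
    · rw [WeierstrassCurve.ΨSq_neg] at hn ⊢
      rw [WeierstrassCurve.Φ_neg]
      obtain ⟨y', h', e⟩ := hnat k hn
      exact ⟨_, (Affine.nonsingular_neg _ y').mpr h',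
        by rw [neg_zsmul, e, Affine.Point.neg_some]⟩
  intro k hk
  rw [eval_ΨSq_eq h.1] at hk
  have hk' : psiVal W x y k ≠ 0 := fun e => hk (by simp [e])
  obtain ⟨y', h', e⟩ := (mulSpec h k).2 hk'
  rw [natCast_zsmul, e]
  refine exists_some_congr h' ?_
  rw [eval_Φ_eq h.1, eval_ΨSq_eq h.1]
  field_simp

omit [DecidableEq K] in
/-- `Φₙ` and `ΨSqₙ` have no common root below a nonsingular point. -/
theorem eval_Φ_ne_zero_of_eval_ΨSq_eq_zero (h : W.Nonsingular x y) (n : ℤ)
    (hn : (W.ΨSq n).eval x = 0) : (W.Φ n).eval x ≠ 0 := by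
  suffices hnat : ∀ k : ℕ, (W.ΨSq k).eval x = 0 → (W.Φ k).eval x ≠ 0 by
    obtain ⟨k, rfl | rfl⟩ := n.eq_nat_or_neg
    · exact hnat k hn
    · rw [WeierstrassCurve.ΨSq_neg] at hn
      rw [WeierstrassCurve.Φ_neg]
      exact hnat k hn
  intro k hk
  rw [eval_ΨSq_eq h.1, pow_eq_zero_iff two_ne_zero] at hk
  rw [eval_Φ_eq h.1, hk]
  have h1 := psiVal_succ_ne_zero h k hk
  have h2 : psiVal W x y ((k : ℤ) - 1) ≠ 0 := by
    rcases k with _ | k
    · simp [psiVal_neg]
    · intro hh
      push_cast at hh hk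
      rw [add_sub_cancel_right] at hh
      exact psiVal_succ_ne_zero h k hh hk
  simp [mul_ne_zero h1 h2]

end FLTAgent.Torsion
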