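import Mathlib.AlgebraicGeometry.EllipticCurve.DivisionPolynomial.Degree
import Mathlib.FieldTheory.IsAlgClosed.AlgebraicClosure
import Mathlib.FieldTheory.Separable
import Mathlib.Algebra.Module.ZMod
import Mathlib.Algebra.Field.ZMod
import Mathlib.Algebra.Module.Torsion.Basic
import Mathlib.Algebra.CharP.Lemmas
import Fermat.Agent.Torsion.MulFormula

/-!
# Divisibility of the group of points and the order of the torsion subgroups
-/

namespace FLTAgent.Torsion

open Polynomial WeierstrassCurve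

variable {K : Type*} [Field K] {W : WeierstrassCurve.Affine K}

lemma exists_equation [IsAlgClosed K] (W : WeierstrassCurve.Affine K) (x : K) :
    ∃ y, W.Equation x y := by
  let p : K[X] := X ^ 2 + (C (W.a₁ * x + W.a₃) * X -
    C (x ^ 3 + W.a₂ * x ^ 2 + W.a₄ * x + W.a₆))
  have hlt : (C (W.a₁ * x + W.a₃) * X -
      C (x ^ 3 + W.a₂ * x ^ 2 + W.a₄ * x + W.a₆)).degree < (X ^ 2 : K[X]).degree := by
    rw [degree_X_pow, sub_eq_add_neg, ← C_neg]
    exact lt_of_le_of_lt degree_linear_le (by norm_num)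
  have hdeg : p.degree ≠ 0 := by
    show (X ^ 2 + _ : K[X]).degree ≠ 0
    rw [degree_add_eq_left_of_degree_lt hlt, degree_X_pow]
    norm_num
  obtain ⟨y, hy⟩ := IsAlgClosed.exists_root p hdeg
  refine ⟨y, (Affine.equation_iff x y).mpr ?_⟩
  simp only [p, IsRoot, eval_add, eval_sub, eval_mul, eval_pow, eval_C, eval_X] at hy
  linear_combination hy

lemma exists_nonsingular [IsAlgClosed K] [W.IsElliptic] (x : K) : ∃ y, W.Nonsingular x y :=
  let ⟨y, hy⟩ := exists_equation W x
  ⟨y, Affine.equation_iff_nonsingular.mp hy⟩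

/-- Monicity of `Φₙ - x₀ ΨSqₙ`. -/
lemma natDegree_Φ_sub_C_mul_ΨSq (W : WeierstrassCurve K) {n : ℤ} (hn : n ≠ 0) (x₀ : K) :
    (W.Φ n - C x₀ * W.ΨSq n).natDegree = n.natAbs ^ 2 := by
  have h1 : 0 < n.natAbs ^ 2 := by positivity
  have h2 : (C x₀ * W.ΨSq n).natDegree < n.natAbs ^ 2 :=
    lt_of_le_of_lt ((natDegree_C_mul_le _ _).trans (W.natDegree_ΨSq_le n)) (by omega)
  rw [natDegree_sub_eq_left_of_natDegree_lt (by rwa [W.natDegree_Φ n]), W.natDegree_Φ n]

variable [DecidableEq K]

/-- The group of points over an algebraically closed field is divisible. -/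
theorem zsmul_surjective [IsAlgClosed K] [W.IsElliptic] {n : ℤ} (hn : n ≠ 0) :
    Function.Surjective fun P : W.Point => n • P := by
  rintro (_ | ⟨x₀, y₀, h₀⟩)
  · exact ⟨0, zsmul_zero n⟩
  have hdeg := natDegree_Φ_sub_C_mul_ΨSq W hn x₀
  have hpos : 0 < n.natAbs ^ 2 := by positivity
  have hne : (W.Φ n - C x₀ * W.ΨSq n).degree ≠ 0 := fun h0 => by
    rw [natDegree_eq_zero_iff_degree_le_zero.mpr h0.le] at hdeg; omega
  obtain ⟨r, hr⟩ := IsAlgClosed.exists_root _ hne
  simp only [IsRoot, eval_sub, eval_mul, eval_C, sub_eq_zero] at hr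
  obtain ⟨y, h⟩ := exists_nonsingular (W := W) r
  have hΨ : (W.ΨSq n).eval r ≠ 0 := fun h0 =>
    eval_Φ_ne_zero_of_eval_ΨSq_eq_zero h n h0 (by rw [hr, h0, mul_zero])
  obtain ⟨y', h', e⟩ := exists_zsmul_some_eq h n hΨ
  have hx : (W.Φ n).eval r / (W.ΨSq n).eval r = x₀ := by rw [hr]; field_simp
  rcases (Affine.Point.X_eq_iff (h₁ := h') (h₂ := h₀)).mp hx with e' | e'
  · exact ⟨_, e.trans e'⟩
  · exact ⟨-Affine.Point.some r y h, by
      change n • -Affine.Point.some r y h = _
      rw [zsmul_neg, e, e', neg_neg]⟩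

omit [DecidableEq K] in
/-- `ΨSqₙ` is a nonzero polynomial for `n ≠ 0`, in every characteristic. -/
theorem ΨSq_ne_zero_of_ne_zero (W : WeierstrassCurve K) [W.IsElliptic] {n : ℤ} (hn : n ≠ 0) :
    W.ΨSq n ≠ 0 := by
  classical
  intro h0
  let L := AlgebraicClosure K
  let WL : WeierstrassCurve.Affine L := W.map (algebraMap K L)
  have : WL.IsElliptic := inferInstanceAs (W.map (algebraMap K L)).IsElliptic
  obtain ⟨y, hy⟩ := exists_nonsingular (W := WL) 0
  obtain ⟨Q, hQ⟩ := zsmul_surjective hn (Affine.Point.some 0 y hy)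
  change n • Q = _ at hQ
  cases Q with
  | zero => exact Affine.Point.some_ne_zero hy (by rw [← hQ]; exact zsmul_zero n)
  | some x' y' h' =>
    refine Affine.Point.some_ne_zero hy (by
      rw [← hQ, zsmul_some_eq_zero_iff]
      simp [WL, h0])

omit [DecidableEq K] in
theorem preΨ_ne_zero_of_ne_zero (W : WeierstrassCurve K) [W.IsElliptic] {n : ℤ} (hn : n ≠ 0) :
    W.preΨ n ≠ 0 := fun h => ΨSq_ne_zero_of_ne_zero W hn (by simp [ΨSq, h])

/-- The `X`-coordinate of a point, if it is affine. -/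
def xCoord? : W.Point → Option K
  | .zero => none
  | .some x _ _ => .some x

omit [DecidableEq K] in
lemma xCoord?_fiber (P Q : W.Point) (h : xCoord? P = xCoord? Q) : P = Q ∨ P = -Q := by
  rcases P with _ | ⟨x, y, hP⟩ <;> rcases Q with _ | ⟨x', y', hQ⟩ <;>
    simp [xCoord?] at h
  · exact Or.inl rfl
  · exact Affine.Point.X_eq_iff.mp h

/-- The `n`-torsion points have affine `X`-coordinates among the roots of `ΨSqₙ`. -/
lemma xCoord?_mem_of_zsmul_eq_zero {n : ℤ} (hn0 : W.ΨSq n ≠ 0) {P : W.Point} (hP : n • P = 0) :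
    xCoord? P ∈ insert none ((W.ΨSq n).roots.toFinset.image Option.some) := by
  cases P with
  | zero => simp [xCoord?]
  | some x y h =>
    simp [xCoord?, hn0, (zsmul_some_eq_zero_iff h n).mp hP]

lemma setOf_zsmul_eq_zero_finite [W.IsElliptic] {n : ℤ} (hn : n ≠ 0) :
    {P : W.Point | n • P = 0}.Finite := by
  have hT : (↑(insert none ((W.ΨSq n).roots.toFinset.image Option.some)) : Set (Option K)).Finite :=
    Finset.finite_toSet _
  refine (hT.biUnion (t := fun o => {P : W.Point | xCoord? P = o}) fun o _ => ?_).subset fun P hP =>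
    Set.mem_biUnion (xCoord?_mem_of_zsmul_eq_zero (ΨSq_ne_zero_of_ne_zero W hn) hP) rfl
  by_cases he : ∃ P : W.Point, xCoord? P = o
  · obtain ⟨P, rfl⟩ := he
    exact (Set.toFinite ({P, -P} : Set W.Point)).subset fun Q hQ => xCoord?_fiber Q P hQ
  · exact Set.finite_empty.subset fun P hP => he ⟨P, hP⟩

theorem finite_torsionBy [W.IsElliptic] {n : ℕ} (hn : n ≠ 0) :
    Finite (Submodule.torsionBy ℤ W.Point (n : ℤ)) :=
  ((setOf_zsmul_eq_zero_finite (W := W) (Int.natCast_ne_zero.mpr hn)).subset fun _ hP =>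
    (Submodule.mem_torsionBy_iff _ _).mp hP).to_subtype

omit [DecidableEq K] in
/-- The Wronskian of `Φₙ` and `ΨSqₙ` is nonzero when `n` is invertible. -/
lemma wronskian_Φ_ΨSq_ne_zero (W : WeierstrassCurve K) {n : ℕ} (hn : (n : K) ≠ 0) :
    derivative (W.Φ n) * W.ΨSq n - W.Φ n * derivative (W.ΨSq n) ≠ 0 := by
  obtain rfl | hn1 := eq_or_ne n 1
  · simp
  have hn0 : n ≠ 0 := fun h => hn (by simp [h])
  obtain ⟨k, hk⟩ : ∃ k, n ^ 2 = k + 2 := ⟨n ^ 2 - 2, by
    have h2 : 2 ≤ n := by omega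
    have := Nat.pow_le_pow_left h2 2
    omega⟩
  have hΦd : (W.Φ n).natDegree ≤ k + 2 := by simp [← hk]
  have hΦc : (W.Φ n).coeff (k + 2) = 1 := by
    rw [← hk, ← W.coeff_Φ n, Int.natAbs_natCast]
  have hΨd : (W.ΨSq n).natDegree ≤ k + 1 := by simpa [hk] using W.natDegree_ΨSq_le n
  have hΨc : (W.ΨSq n).coeff (k + 1) = (n : K) ^ 2 := by simpa [hk] using W.coeff_ΨSq n
  have hkK : (n : K) ^ 2 = (k : K) + 2 := by exact_mod_cast congrArg (Nat.cast : ℕ → K) hk
  intro h
  have hc := congrArg (fun p : K[X] => p.coeff (2 * k + 2)) h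
  simp only [coeff_sub, coeff_zero] at hc
  rw [show (2 * k + 2) = (k + 1) + (k + 1) by ring,
    coeff_mul_add_eq_of_natDegree_le ((natDegree_derivative_le _).trans (by omega)) hΨd,
    show (k + 1) + (k + 1) = (k + 2) + k by ring,
    coeff_mul_add_eq_of_natDegree_le hΦd ((natDegree_derivative_le _).trans (by omega)),
    coeff_derivative, coeff_derivative, show k + 1 + 1 = k + 2 by ring, hΦc, hΨc] at hc
  apply hn
  apply pow_eq_zero_iff two_ne_zero |>.mp
  push_cast at hc
  linear_combination hc - (n : K) ^ 2 * hkK + (n : K) ^ 2 * hkK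

omit [DecidableEq K] in
/-- The fibre of multiplication by `n` is a translate of the kernel. -/
lemma natCard_fiber {A : Type*} [AddCommGroup A] (n : ℤ) {Q P₀ : A} (h₀ : n • P₀ = Q) :
    Nat.card {P : A // n • P = Q} = Nat.card (Submodule.torsionBy ℤ A n) := by
  refine Nat.card_congr
    { toFun := fun P => ⟨P.1 - P₀, by
        rw [Submodule.mem_torsionBy_iff, zsmul_sub, P.2, h₀, sub_self]⟩
      invFun := fun P => ⟨P.1 + P₀, by
        rw [zsmul_add, (Submodule.mem_torsionBy_iff _ _).mp P.2, zero_add, h₀]⟩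
      left_inv := fun P => Subtype.ext (sub_add_cancel _ _)
      right_inv := fun P => Subtype.ext (add_sub_cancel_right _ _) }

/-- `#E[n] = n²` over an algebraically closed field in which `n` is invertible. -/
theorem natCard_torsionBy [IsAlgClosed K] [W.IsElliptic] (n : ℕ) (hn : (n : K) ≠ 0) :
    Nat.card (Submodule.torsionBy ℤ W.Point (n : ℤ)) = n ^ 2 := by
  have hn0 : n ≠ 0 := fun h => hn (by simp [h])
  have hz : (n : ℤ) ≠ 0 := Int.natCast_ne_zero.mpr hn0
  set Wr := derivative (W.Φ n) * W.ΨSq n - W.Φ n * derivative (W.ΨSq n) with hWr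
  -- choose a point `Q` not of order dividing two whose fibre is reduced
  obtain ⟨x₀, hx₀⟩ := Finset.exists_notMem
    ((Wr.roots.toFinset.image fun r => (W.Φ n).eval r / (W.ΨSq n).eval r) ∪
      (W.ΨSq 2).roots.toFinset)
  simp only [Finset.mem_union, not_or, Finset.mem_image, not_exists, not_and,
    Multiset.mem_toFinset, mem_roots', not_and] at hx₀
  obtain ⟨hgood, htwo⟩ := hx₀
  obtain ⟨y₀, h₀⟩ := exists_nonsingular (W := W) x₀
  set Q := Affine.Point.some x₀ y₀ h₀ with hQ
  have hQ2 : -Q ≠ Q := fun e => by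
    refine htwo (ΨSq_ne_zero_of_ne_zero W two_ne_zero) ((zsmul_some_eq_zero_iff h₀ 2).mp ?_)
    rw [two_zsmul, ← hQ]
    exact add_eq_zero_iff_eq_neg.mpr e.symm
  set F := W.Φ n - C x₀ * W.ΨSq n with hF
  have hFdeg : F.natDegree = n ^ 2 := by
    rw [hF, natDegree_Φ_sub_C_mul_ΨSq W hz x₀, Int.natAbs_natCast]
  have hF0 : F ≠ 0 := fun h => by
    rw [h, natDegree_zero] at hFdeg; exact absurd hFdeg.symm (pow_ne_zero 2 hn0)
  have hroot : ∀ r, F.IsRoot r → (W.ΨSq n).eval r ≠ 0 ∧
      (W.Φ n).eval r / (W.ΨSq n).eval r = x₀ := by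
    intro r hr
    simp only [hF, IsRoot, eval_sub, eval_mul, eval_C, sub_eq_zero] at hr
    obtain ⟨y, h⟩ := exists_nonsingular (W := W) r
    have hΨ : (W.ΨSq n).eval r ≠ 0 := fun h0 =>
      eval_Φ_ne_zero_of_eval_ΨSq_eq_zero h n h0 (by rw [hr, h0, mul_zero])
    exact ⟨hΨ, by rw [hr]; field_simp⟩
  have hnodup : F.roots.Nodup := by
    rw [Multiset.nodup_iff_count_le_one]
    intro r
    rw [count_roots]
    by_contra hlt
    obtain ⟨hr, hr'⟩ := (one_lt_rootMultiplicity_iff_isRoot hF0).mp (not_le.mp hlt)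
    obtain ⟨hΨ, hdiv⟩ := hroot r hr
    refine hgood r ⟨wronskian_Φ_ΨSq_ne_zero W hn, ?_⟩ hdiv
    simp only [hF, IsRoot, eval_sub, eval_mul, eval_C, sub_eq_zero, derivative_sub,
      derivative_mul, derivative_C, zero_mul, zero_add] at hr hr'
    simp only [hWr, IsRoot, eval_sub, eval_mul, hr, hr']
    ring
  have hcard : F.roots.toFinset.card = n ^ 2 := by
    rw [Multiset.toFinset_card_of_nodup hnodup, IsAlgClosed.card_roots_eq_natDegree, hFdeg]
  obtain ⟨P₀, hP₀⟩ := zsmul_surjective hz Q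
  rw [← natCard_fiber (n : ℤ) hP₀, ← hcard, ← Nat.card_eq_finsetCard]
  have hne : ∀ P : W.Point, (n : ℤ) • P = Q → ∃ x y h, P = Affine.Point.some x y h ∧
      F.IsRoot x := by
    intro P hP
    cases P with
    | zero =>
      exact absurd (hP.symm.trans (zsmul_zero (n : ℤ))) (Affine.Point.some_ne_zero h₀)
    | some x y h =>
      refine ⟨x, y, h, rfl, ?_⟩
      have hΨ : (W.ΨSq n).eval x ≠ 0 := fun h0 => Affine.Point.some_ne_zero h₀
        (hP.symm.trans ((zsmul_some_eq_zero_iff h n).mpr h0))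
      obtain ⟨y', h', e⟩ := exists_zsmul_some_eq h n hΨ
      have hx := Affine.Point.some.inj (e.symm.trans hP)
      simp only [hF, IsRoot, eval_sub, eval_mul, eval_C, ← hx.1]
      field_simp
      ring
  refine Nat.card_eq_of_bijective (fun P => ⟨(xCoord? P.1).getD 0, ?_⟩) ⟨?_, ?_⟩
  · obtain ⟨x, y, h, e, hx⟩ := hne P.1 P.2
    rw [e, Multiset.mem_toFinset, mem_roots hF0]
    exact hx
  · rintro ⟨P, hP⟩ ⟨P', hP'⟩ heq
    obtain ⟨x, y, h, rfl, hx⟩ := hne P hP
    obtain ⟨x', y', h', rfl, hx'⟩ := hne P' hP'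
    simp only [Subtype.mk.injEq, xCoord?, Option.getD_some] at heq
    rcases (Affine.Point.X_eq_iff (h₁ := h) (h₂ := h')).mp heq with e | e
    · exact Subtype.ext e
    · exact absurd (by rw [← hP', ← zsmul_neg, ← e, hP]; exact hP'.symm ▸ rfl) hQ2
  · rintro ⟨r, hr⟩
    rw [Multiset.mem_toFinset, mem_roots hF0] at hr
    obtain ⟨hΨ, hdiv⟩ := hroot r hr
    obtain ⟨y, h⟩ := exists_nonsingular (W := W) r
    obtain ⟨y', h', e⟩ := exists_zsmul_some_eq h n hΨ
    rcases (Affine.Point.X_eq_iff (h₁ := h') (h₂ := h₀)).mp hdiv with e' | e'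
    · exact ⟨⟨_, e.trans e'⟩, rfl⟩
    · refine ⟨⟨-Affine.Point.some r y h, by rw [zsmul_neg, e, e', neg_neg]⟩, ?_⟩
      rw [Subtype.mk.injEq]
      rfl

/-- In characteristic `p`, the `p`-torsion has at most `p` elements. -/
theorem natCard_torsionBy_char_le [W.IsElliptic] (p : ℕ) [hp : Fact p.Prime] [CharP K p] :
    Nat.card (Submodule.torsionBy ℤ W.Point (p : ℤ)) ≤ p := by
  set T := Submodule.torsionBy ℤ W.Point (p : ℤ) with hT
  have hp0 : (p : ℤ) ≠ 0 := Int.natCast_ne_zero.mpr hp.out.ne_zero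
  have : Finite T := finite_torsionBy hp.out.ne_zero
  let _ : Module (ZMod p) T := AddCommGroup.zmodModule fun x => by
    rw [← Nat.cast_smul_eq_nsmul ℤ p x]
    exact Submodule.smul_torsionBy _ x
  have hfin : Module.Finite (ZMod p) T := Module.Finite.of_finite
  have hpow := @Module.natCard_eq_pow_finrank (ZMod p) (↥T) _ _ _ hfin
  rw [Nat.card_zmod] at hpow
  suffices h : Nat.card T < p ^ 2 by
    rw [hpow] at h ⊢
    have := (Nat.pow_lt_pow_iff_right hp.out.one_lt).mp h
    exact le_of_le_of_eq (Nat.pow_le_pow_right hp.out.pos (by omega)) (pow_one p)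
  classical
  have hpre : W.preΨ p ≠ 0 := preΨ_ne_zero_of_ne_zero W hp0
  let f : T → Option K := fun P => xCoord? P.1
  let _ : Fintype T := Fintype.ofFinite T
  rw [Nat.card_eq_fintype_card, ← Finset.card_univ]
  have hpK : ((p : ℤ) : K) = 0 := by simp
  by_cases h2 : p = 2
  · subst h2
    have hΨ : W.Ψ₂Sq ≠ 0 := by simpa using ΨSq_ne_zero_of_ne_zero W (two_ne_zero (α := ℤ))
    have hdeg : W.Ψ₂Sq.natDegree ≤ 2 := by
      refine Nat.le_of_lt_succ (lt_of_le_of_ne W.natDegree_Ψ₂Sq_le fun h3 => ?_)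
      have := leadingCoeff_ne_zero.mpr hΨ
      rw [leadingCoeff, h3, coeff_Ψ₂Sq] at this
      have h4 : (4 : K) = ((2 : ℕ) : K) * 2 := by norm_num
      rw [h4, CharP.cast_eq_zero] at this
      exact this (zero_mul _)
    have hinj : Function.Injective f := by
      rintro ⟨P, hP⟩ ⟨Q, hQ⟩ h
      rcases xCoord?_fiber P Q h with e | e
      · exact Subtype.ext e
      · refine Subtype.ext (e.trans ?_)
        have := (Submodule.mem_torsionBy_iff _ _).mp hQ
        rw [Nat.cast_two, two_zsmul, add_eq_zero_iff_neg_eq] at this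
        exact this
    have hmaps : ∀ P ∈ (Finset.univ : Finset T),
        f P ∈ insert none ((W.Ψ₂Sq).roots.toFinset.image Option.some) := fun P _ => by
      have := xCoord?_mem_of_zsmul_eq_zero (n := ((2 : ℕ) : ℤ)) (W := W) (P := P.1)
        (by simpa using hΨ) ((Submodule.mem_torsionBy_iff _ _).mp P.2)
      simpa using this
    have := Finset.card_le_card_of_injOn f hmaps hinj.injOn
    have h1 := (Finset.card_insert_le (none : Option K)
      ((W.Ψ₂Sq).roots.toFinset.image Option.some))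
    have h2' := Finset.card_image_le (s := W.Ψ₂Sq.roots.toFinset) (f := Option.some)
    have h3 := (Multiset.toFinset_card_le W.Ψ₂Sq.roots).trans ((card_roots' _).trans hdeg)
    omega
  · have hodd : ¬Even (p : ℤ) := by
      rw [Int.even_coe_nat, hp.out.even_iff]; exact h2
    have hdeg : (W.preΨ p).natDegree < (p ^ 2 - 1) / 2 := by
      have hle := W.natDegree_preΨ_le p
      have hc := W.coeff_preΨ p
      rw [if_neg hodd, Int.natAbs_natCast] at hle hc
      refine lt_of_le_of_ne hle fun heq => ?_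
      have := leadingCoeff_ne_zero.mpr hpre
      rw [leadingCoeff, heq, hc, if_neg hodd, hpK] at this
      exact this rfl
    have hmaps : ∀ P ∈ (Finset.univ : Finset T).erase 0,
        f P ∈ (W.preΨ p).roots.toFinset.image Option.some := by
      rintro ⟨P, hP⟩ hP0
      cases P with
      | zero => exact absurd rfl (Finset.ne_of_mem_erase hP0)
      | some x y h =>
        have := (zsmul_some_eq_zero_iff h p).mp ((Submodule.mem_torsionBy_iff _ _).mp hP)
        simp only [ΨSq, if_neg hodd, mul_one, eval_pow, pow_eq_zero_iff two_ne_zero] at this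
        simpa [f, xCoord?] using And.intro hpre this
    have hfib : ∀ o ∈ (W.preΨ p).roots.toFinset.image Option.some,
        ({P ∈ (Finset.univ : Finset T).erase 0 | f P = o}).card ≤ 2 := by
      intro o _
      rcases ({P ∈ (Finset.univ : Finset T).erase 0 | f P = o}).eq_empty_or_nonempty with h | ⟨P, hP⟩
      · simp [h]
      refine (Finset.card_le_card (t := {P, -P}) fun Q hQ => ?_).trans Finset.card_le_two
      simp only [Finset.mem_filter] at hP hQ
      rcases xCoord?_fiber Q.1 P.1 (hQ.2.trans hP.2.symm) with e | e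
      · simp [show Q = P from Subtype.ext e]
      · simp [show Q = -P from Subtype.ext e]
    have := Finset.card_le_mul_card_image_of_maps_to hmaps 2 hfib
    have h2' := Finset.card_image_le (s := (W.preΨ p).roots.toFinset) (f := Option.some)
    have h3 := (Multiset.toFinset_card_le (W.preΨ p).roots).trans (card_roots' _)
    have h4 := Finset.card_erase_add_one (Finset.mem_univ (0 : T))
    omega

end FLTAgent.Torsion
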