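import Fermat.Agent.Torsion.Galois

/-!
# Specialisations: torsion over an arbitrary field and over `ℚ̄`
-/

namespace FLTAgent.Torsion

open WeierstrassCurve
open scoped WeierstrassCurve.Affine

variable {K : Type*} [Field K] [DecidableEq K] (W : WeierstrassCurve.Affine K)

/-- Over any field, `#E[n] ≤ n²` when `n` is invertible. -/
theorem natCard_torsionBy_le [W.IsElliptic] {n : ℕ} (hn : (n : K) ≠ 0) :
    Nat.card (Submodule.torsionBy ℤ W.Point (n : ℤ)) ≤ n ^ 2 := by
  classical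
  let L := AlgebraicClosure K
  have : (W⁄L).IsElliptic := inferInstanceAs (W.map (algebraMap K L)).IsElliptic
  have hn' : (n : L) ≠ 0 := by
    rw [← map_natCast (algebraMap K L)]
    exact fun h => hn ((map_eq_zero _).mp h)
  rw [← natCard_torsionBy_baseChange (K := L) W n hn']
  have := finite_torsionBy (W := W⁄L) (n := n) fun h => hn (by simp [h])
  let φ : (W⁄K).Point →+ (W⁄L).Point := Affine.Point.baseChange K L
  refine Nat.card_le_card_of_injective (α := Submodule.torsionBy ℤ (W⁄K).Point (n : ℤ))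
    (fun P => (⟨φ P.1, ?_⟩ : Submodule.torsionBy ℤ (W⁄L).Point (n : ℤ))) fun P Q h =>
      Subtype.ext (Affine.Point.map_injective _ (congrArg Subtype.val h))
  rw [Submodule.mem_torsionBy_iff, ← map_zsmul, (Submodule.mem_torsionBy_iff _ _).mp P.2, map_zero]

section Rat

variable (W₀ : WeierstrassCurve ℚ) [W₀.IsElliptic]

/-- `#E(ℚ̄)[n] = n²`. -/
theorem natCard_torsionBy_qbar {n : ℕ} (hn : n ≠ 0) :
    Nat.card (Submodule.torsionBy ℤ (W₀⁄(AlgebraicClosure ℚ)).Point (n : ℤ)) = n ^ 2 :=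
  haveI : (W₀⁄(AlgebraicClosure ℚ)).IsElliptic :=
    inferInstanceAs (W₀.map (algebraMap ℚ (AlgebraicClosure ℚ))).IsElliptic
  natCard_torsionBy_baseChange W₀ n (Nat.cast_ne_zero.mpr hn)

/-- `E(ℚ̄)[p]` has dimension two over `𝔽_p`. -/
theorem finrank_torsionBy_qbar (p : ℕ) [hp : Fact p.Prime] :
    Module.finrank (ZMod p)
      (Submodule.torsionBy ℤ (W₀⁄(AlgebraicClosure ℚ)).Point (p : ℤ)) = 2 :=
  haveI : (W₀⁄(AlgebraicClosure ℚ)).IsElliptic :=
    inferInstanceAs (W₀.map (algebraMap ℚ (AlgebraicClosure ℚ))).IsElliptic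
  finrank_torsionBy_prime W₀ p (Nat.cast_ne_zero.mpr hp.out.ne_zero)

end Rat

end FLTAgent.Torsion
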