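import Mathlib.GroupTheory.Exponent
import Mathlib.GroupTheory.QuotientGroup.Basic
import Mathlib.LinearAlgebra.Dimension.Finrank
import Mathlib.LinearAlgebra.Dimension.Constructions
import Mathlib.LinearAlgebra.Pi
import Fermat.Prelude.Def_FLTPrelim_GaloisRep
import Fermat.Agent.Torsion.Count

/-!
# The structure `E[n] ≅ (ℤ/n)²`
-/

namespace FLTAgent.Torsion

open Function

section AbstractGroup

variable {T : Type*} [AddCommGroup T]

/-- A finite abelian group killed by `n` in which, for each `d ∣ n`, exactly `d²` elements are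
killed by `d`, is isomorphic to `(ℤ/n)²`. -/
theorem nonempty_addEquiv_prod_zmod {n : ℕ} (hn : n ≠ 0) (hT : ∀ x : T, n • x = 0)
    (hcard : ∀ d : ℕ, d ∣ n → Nat.card {x : T // d • x = 0} = d ^ 2) :
    Nonempty (T ≃+ ZMod n × ZMod n) := by
  have : NeZero n := ⟨hn⟩
  have hTcard : Nat.card T = n ^ 2 := by
    rw [← hcard n dvd_rfl]
    exact Nat.card_congr (Equiv.subtypeUnivEquiv hT).symm
  have : Finite T := Nat.finite_of_card_ne_zero (by rw [hTcard]; exact pow_ne_zero 2 hn)
  have hexpT : AddMonoid.exponent T = n := by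
    have hdvd : AddMonoid.exponent T ∣ n :=
      AddMonoid.exponent_dvd_of_forall_nsmul_eq_zero hT
    have h := hcard _ hdvd
    rw [Nat.card_congr (Equiv.subtypeUnivEquiv fun x : T => AddMonoid.exponent_nsmul_eq_zero x),
      hTcard] at h
    exact (Nat.pow_left_injective two_ne_zero h).symm
  obtain ⟨P, hP⟩ := AddMonoid.exists_addOrderOf_eq_exponent
    (G := T) (AddMonoid.ExponentExists.of_finite)
  rw [hexpT] at hP
  set H := AddSubgroup.zmultiples P
  have hH : Nat.card H = n := by rw [Nat.card_zmultiples, hP]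
  have hG : Nat.card (T ⧸ H) = n := by
    have := AddSubgroup.card_eq_card_quotient_mul_card_addSubgroup H
    rw [hTcard, hH, sq] at this
    exact (Nat.eq_of_mul_eq_mul_right (Nat.pos_of_ne_zero hn) this).symm
  have hzP : ∀ a : ℤ, a • P = 0 ↔ (n : ℤ) ∣ a := fun a => by
    rw [← addOrderOf_dvd_iff_zsmul_eq_zero, hP]
  have hPH : (P : T ⧸ H) = 0 :=
    (QuotientAddGroup.eq_zero_iff P).mpr (AddSubgroup.mem_zmultiples P)
  set e := AddMonoid.exponent (T ⧸ H) with he
  have hdvd : e ∣ n := AddMonoid.exponent_dvd_of_forall_nsmul_eq_zero fun g => by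
    obtain ⟨x, rfl⟩ := QuotientAddGroup.mk_surjective g
    rw [← QuotientAddGroup.mk_nsmul, hT]; rfl
  obtain ⟨q, hq⟩ := hdvd
  have he0 : e ≠ 0 := fun h => hn (by rw [hq, h, zero_mul])
  have hlift : ∀ g : T ⧸ H, ∃ x : T, e • x = 0 ∧ (x : T ⧸ H) = g := by
    intro g
    obtain ⟨x, rfl⟩ := QuotientAddGroup.mk_surjective g
    have hx : e • x ∈ H := by
      rw [← QuotientAddGroup.eq_zero_iff, QuotientAddGroup.mk_nsmul, he]
      exact AddMonoid.exponent_nsmul_eq_zero _
    obtain ⟨a, ha⟩ := AddSubgroup.mem_zmultiples_iff.mp hx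
    have h1 : ((q : ℤ) * a) • P = 0 := by
      rw [mul_zsmul, ha, natCast_zsmul, smul_smul, mul_comm, ← hq, hT]
    obtain ⟨b, hb⟩ := (hzP _).mp h1
    have hab : a = (e : ℤ) * b := by
      have hq0 : (q : ℤ) ≠ 0 := by
        rintro h; exact hn (by rw [hq, Int.natCast_eq_zero.mp h, mul_zero])
      rw [hq] at hb
      push_cast at hb
      exact mul_left_cancel₀ hq0 (by rw [hb]; ring)
    refine ⟨x - b • P, ?_, ?_⟩
    · rw [smul_sub, ← natCast_zsmul (b • P), ← mul_zsmul, ← hab, ha, sub_self]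
    · rw [QuotientAddGroup.eq, neg_sub, sub_add_cancel]
      exact AddSubgroup.mem_zmultiples_iff.mpr ⟨b, rfl⟩
  choose s hs0 hs using hlift
  have hen : n ≤ e := by
    let f : Fin e × (T ⧸ H) → {x : T // e • x = 0} := fun kg =>
      ⟨((kg.1.val : ℤ) * q) • P + s kg.2, by
        rw [smul_add, hs0, add_zero, ← natCast_zsmul, ← mul_zsmul, hzP]
        exact ⟨kg.1.val, by rw [hq]; push_cast; ring⟩⟩
    have hf : Injective f := by
      rintro ⟨k, g⟩ ⟨k', g'⟩ h
      have h' := congrArg Subtype.val h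
      simp only [f] at h'
      have hg : g = g' := by
        have := congrArg (fun x : T => (x : T ⧸ H)) h'
        simpa [QuotientAddGroup.mk_add, hs, hPH] using this
      subst hg
      rw [add_left_inj, ← sub_eq_zero, ← sub_smul, hzP, hq, ← sub_mul] at h'
      push_cast at h'
      have hq0 : (q : ℤ) ≠ 0 := by
        rintro h; exact hn (by rw [hq, Int.natCast_eq_zero.mp h, mul_zero])
      have h3 : (e : ℤ) ∣ (k.val : ℤ) - k'.val := Int.dvd_of_mul_dvd_mul_right hq0 h'
      have := Int.eq_zero_of_abs_lt_dvd h3 (by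
        rw [abs_lt]; constructor <;> omega)
      exact Prod.ext (Fin.ext (show k.val = k'.val by omega)) rfl
    have := Nat.card_le_card_of_injective f hf
    rw [Nat.card_prod, Nat.card_fin, hG, hcard e ⟨q, hq⟩, sq] at this
    exact Nat.le_of_mul_le_mul_left this (Nat.pos_of_ne_zero he0)
  have hene : e = n := le_antisymm (Nat.le_of_dvd (Nat.pos_of_ne_zero hn) ⟨q, hq⟩) hen
  obtain ⟨g, hg⟩ := AddMonoid.exists_addOrderOf_eq_exponent
    (G := T ⧸ H) (AddMonoid.ExponentExists.of_finite)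
  obtain ⟨Q, rfl⟩ := QuotientAddGroup.mk_surjective g
  let φ₁ : ZMod n →+ T := ZMod.lift n ⟨zmultiplesHom T P, by simpa using hT P⟩
  let φ₂ : ZMod n →+ T := ZMod.lift n ⟨zmultiplesHom T Q, by simpa using hT Q⟩
  let φ : ZMod n × ZMod n →+ T := φ₁.coprod φ₂
  have hinj : Injective φ := by
    rw [injective_iff_map_eq_zero]
    rintro ⟨u, v⟩ h
    obtain ⟨a, rfl⟩ := ZMod.intCast_surjective u
    obtain ⟨b, rfl⟩ := ZMod.intCast_surjective v
    simp only [φ, φ₁, φ₂, AddMonoidHom.coprod_apply, ZMod.lift_coe, zmultiplesHom_apply] at h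
    have hb : (n : ℤ) ∣ b := by
      have := congrArg (fun x : T => (x : T ⧸ H)) h
      simp only [QuotientAddGroup.mk_add, QuotientAddGroup.mk_zsmul, QuotientAddGroup.mk_zero,
        hPH, zsmul_zero, zero_add] at this
      rw [← hene, he, ← hg]
      exact addOrderOf_dvd_iff_zsmul_eq_zero.mpr this
    obtain ⟨c, rfl⟩ := hb
    rw [mul_comm (n : ℤ) c, mul_zsmul, natCast_zsmul, hT, zsmul_zero, add_zero, hzP] at h
    ext <;> simp [(ZMod.intCast_zmod_eq_zero_iff_dvd _ _).mpr h]
  have hbij : Bijective φ := (Nat.bijective_iff_injective_and_card φ).mpr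
    ⟨hinj, by rw [Nat.card_prod, Nat.card_zmod, hTcard, sq]⟩
  exact ⟨(AddEquiv.ofBijective φ hbij).symm⟩

end AbstractGroup

open WeierstrassCurve
open scoped WeierstrassCurve.Affine

universe r v

variable {K : Type v} [Field K] [DecidableEq K] [IsAlgClosed K]

/-- `E[n] ≅ (ℤ/n)²` over an algebraically closed field in which `n` is invertible. -/
theorem nonempty_torsionBy_addEquiv (W : WeierstrassCurve.Affine K) [W.IsElliptic] (n : ℕ)
    (hn : (n : K) ≠ 0) :
    Nonempty (Submodule.torsionBy ℤ W.Point (n : ℤ) ≃+ ZMod n × ZMod n) := by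
  refine nonempty_addEquiv_prod_zmod (fun h => hn (by simp [h])) (fun x => ?_) (fun d hd => ?_)
  · rw [← natCast_zsmul]; exact Submodule.smul_torsionBy _ x
  · have hd' : (d : K) ≠ 0 := by
      obtain ⟨c, rfl⟩ := hd
      intro h; exact hn (by simp [h])
    rw [← natCard_torsionBy (W := W) d hd']
    refine Nat.card_congr
      { toFun := fun x => ⟨x.1.1, ?_⟩
        invFun := fun x => ⟨⟨x.1, ?_⟩, ?_⟩
        left_inv := fun x => rfl
        right_inv := fun x => rfl }
    · rw [Submodule.mem_torsionBy_iff, natCast_zsmul]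
      exact congrArg Subtype.val x.2
    · obtain ⟨c, hc⟩ := hd
      rw [Submodule.mem_torsionBy_iff, hc, Nat.cast_mul, mul_comm, mul_zsmul,
        (Submodule.mem_torsionBy_iff _ _).mp x.2, zsmul_zero]
    · refine Subtype.ext ?_
      rw [AddSubmonoidClass.coe_nsmul, ← natCast_zsmul]
      exact (Submodule.mem_torsionBy_iff _ _).mp x.2

section BaseChanged

variable {R : Type r} [CommRing R] [Algebra R K] (W' : WeierstrassCurve.Affine R)
  [(W'⁄K).IsElliptic]

/-- `E[n]` is free of rank two over `ℤ/n`. -/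
theorem nonempty_torsionBy_linearEquiv (n : ℕ) (hn : (n : K) ≠ 0) :
    Nonempty (Submodule.torsionBy ℤ (W'⁄K).Point (n : ℤ) ≃ₗ[ZMod n] (Fin 2 → ZMod n)) := by
  obtain ⟨e⟩ := nonempty_torsionBy_addEquiv (W'⁄K) n hn
  exact ⟨(e.toLinearEquiv (ZMod.map_smul e.toAddMonoidHom)).trans
    (LinearEquiv.finTwoArrow (ZMod n) (ZMod n)).symm⟩

theorem free_torsionBy (n : ℕ) (hn : (n : K) ≠ 0) :
    Module.Free (ZMod n) (Submodule.torsionBy ℤ (W'⁄K).Point (n : ℤ)) :=
  let ⟨e⟩ := nonempty_torsionBy_linearEquiv W' n hn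
  Module.Free.of_equiv e.symm

theorem moduleFinite_torsionBy (n : ℕ) (hn : (n : K) ≠ 0) :
    Module.Finite (ZMod n) (Submodule.torsionBy ℤ (W'⁄K).Point (n : ℤ)) :=
  let ⟨e⟩ := nonempty_torsionBy_linearEquiv W' n hn
  Module.Finite.equiv e.symm

theorem finrank_torsionBy (n : ℕ) [Fact (1 < n)] (hn : (n : K) ≠ 0) :
    Module.finrank (ZMod n) (Submodule.torsionBy ℤ (W'⁄K).Point (n : ℤ)) = 2 := by
  obtain ⟨e⟩ := nonempty_torsionBy_linearEquiv W' n hn
  rw [e.finrank_eq, Module.finrank_fin_fun]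

theorem finrank_torsionBy_prime (p : ℕ) [hp : Fact p.Prime] (hpK : (p : K) ≠ 0) :
    Module.finrank (ZMod p) (Submodule.torsionBy ℤ (W'⁄K).Point (p : ℤ)) = 2 :=
  haveI : Fact (1 < p) := ⟨hp.out.one_lt⟩
  finrank_torsionBy W' p hpK

theorem natCard_torsionBy_baseChange (n : ℕ) (hn : (n : K) ≠ 0) :
    Nat.card (Submodule.torsionBy ℤ (W'⁄K).Point (n : ℤ)) = n ^ 2 :=
  natCard_torsionBy n hn

end BaseChanged

end FLTAgent.Torsion
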