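import Mathlib.FieldTheory.KrullTopology
import Mathlib.FieldTheory.Galois.Infinite
import Fermat.Prelude.Def_GaloisRep_Residual
import Fermat.Agent.Torsion.Structure

/-!
# The Galois action on torsion points has open kernel
-/

namespace FLTAgent.Torsion

open WeierstrassCurve WeierstrassCurve.Affine.Point
open scoped WeierstrassCurve.Affine

universe r s v

variable {R : Type r} {S : Type s} {K : Type v} [CommRing R] [Field S] [Field K] [DecidableEq K]
  [Algebra R S] [Algebra R K] [Algebra S K] [IsScalarTower R S K]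
  (W' : WeierstrassCurve.Affine R)

/-- A point whose coordinates are fixed by `σ` is fixed by `σ`. -/
lemma smul_some_eq_self {x y : K} (h : (W'⁄K).Nonsingular x y) (σ : K ≃ₐ[S] K) (hx : σ x = x)
    (hy : σ y = y) : σ • (Affine.Point.some x y h : (W'⁄K).Point) = Affine.Point.some x y h := by
  rw [algEquiv_smul_def, Affine.Point.map_some]
  simp [hx, hy]

variable (S) in
/-- Finitely many points are defined over a finite extension. -/
theorem exists_finiteDimensional_smul_eq [Algebra.IsAlgebraic S K] (T : Set (W'⁄K).Point)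
    (hT : T.Finite) : ∃ L : IntermediateField S K, FiniteDimensional S L ∧
      ∀ σ : K ≃ₐ[S] K, (∀ x ∈ L, σ x = x) → ∀ P ∈ T, σ • P = P := by
  let c : (W'⁄K).Point → Set K := fun P => match P with
    | .zero => ∅
    | .some x y _ => {x, y}
  have hfin : (⋃ P ∈ T, c P).Finite := hT.biUnion fun P _ => by
    rcases P with _ | ⟨x, y, h⟩
    · exact Set.finite_empty
    · exact Set.toFinite _
  have := hfin.to_subtype
  refine ⟨IntermediateField.adjoin S (⋃ P ∈ T, c P),
    IntermediateField.finiteDimensional_adjoin fun z _ => Algebra.IsIntegral.isIntegral z,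
    fun σ hσ P hP => ?_⟩
  rcases P with _ | ⟨x, y, h⟩
  · rfl
  · refine smul_some_eq_self W' h σ
      (hσ x (IntermediateField.subset_adjoin S _ ?_))
      (hσ y (IntermediateField.subset_adjoin S _ ?_)) <;>
      exact Set.mem_biUnion hP (by simp [c])

variable (S) in
/-- The stabiliser of all `n`-torsion points contains the Galois group of a finite extension. -/
theorem exists_finiteDimensional_galoisRepModuleEnd_eq_one [Algebra.IsAlgebraic S K]
    [(W'⁄K).IsElliptic] {n : ℕ} (hn : n ≠ 0) :
    ∃ L : IntermediateField S K, FiniteDimensional S L ∧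
      ∀ σ : K ≃ₐ[S] K, (∀ x ∈ L, σ x = x) → galoisRepModuleEnd (K := K) S W' n σ = 1 := by
  have := finite_torsionBy (W := W'⁄K) hn
  obtain ⟨L, hL, hfix⟩ := exists_finiteDimensional_smul_eq S W'
    ((Submodule.torsionBy ℤ (W'⁄K).Point (n : ℤ)) : Set (W'⁄K).Point) (Set.toFinite _)
  exact ⟨L, hL, fun σ hσ => LinearMap.ext fun P => Subtype.ext (hfix σ hσ P.1 P.2)⟩

variable (S) in
/-- The kernel of the mod `n` representation is open. -/
theorem isOpen_ker_galoisRepModuleEnd [Algebra.IsAlgebraic S K] [(W'⁄K).IsElliptic] {n : ℕ}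
    (hn : n ≠ 0) :
    IsOpen ((galoisRepModuleEnd (K := K) S W' n).ker : Set (K ≃ₐ[S] K)) := by
  obtain ⟨L, hL, hfix⟩ := exists_finiteDimensional_galoisRepModuleEnd_eq_one S W' (K := K) hn
  exact Subgroup.isOpen_mono (H₁ := L.fixingSubgroup)
    (fun σ hσ => hfix σ ((mem_fixingSubgroup_iff _).mp hσ)) L.fixingSubgroup_isOpen

/-- The mod `n` representation of an elliptic curve over `ℚ` factors through a finite level. -/
theorem galoisFactorsThroughFiniteLevel_galoisRepModuleEnd (W : WeierstrassCurve ℚ)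
    [W.IsElliptic] {n : ℕ} (hn : n ≠ 0) :
    GaloisFactorsThroughFiniteLevel
      (galoisRepModuleEnd (K := AlgebraicClosure ℚ) ℚ W n) :=
  haveI : (W⁄(AlgebraicClosure ℚ)).IsElliptic :=
    inferInstanceAs (W.map (algebraMap ℚ (AlgebraicClosure ℚ))).IsElliptic
  haveI : Algebra.IsAlgebraic ℚ (AlgebraicClosure ℚ) := AlgebraicClosure.isAlgebraic ℚ
  exists_finiteDimensional_galoisRepModuleEnd_eq_one ℚ W hn

variable (S) in
/-- Galois descent for points. -/
theorem mem_range_baseChange_iff_smul_eq [DecidableEq S] [IsGalois S K] (P : (W'⁄K).Point) :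
    P ∈ Set.range (Affine.Point.baseChange (W' := W') S K) ↔ ∀ σ : K ≃ₐ[S] K, σ • P = P := by
  constructor
  · rintro ⟨Q, rfl⟩ σ
    rw [algEquiv_smul_def, Affine.Point.map_baseChange]
  intro h
  rcases P with _ | ⟨x, y, hxy⟩
  · exact ⟨0, rfl⟩
  have hfix : ∀ σ : K ≃ₐ[S] K, σ x = x ∧ σ y = y := fun σ => by
    have := h σ
    rw [algEquiv_smul_def, Affine.Point.map_some] at this
    exact Affine.Point.some.inj this
  obtain ⟨x', rfl⟩ := (InfiniteGalois.mem_range_algebraMap_iff_fixed x).mpr fun σ => (hfix σ).1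
  obtain ⟨y', rfl⟩ := (InfiniteGalois.mem_range_algebraMap_iff_fixed y).mpr fun σ => (hfix σ).2
  have hns : (W'⁄S).Nonsingular x' y' :=
    (Affine.baseChange_nonsingular (W := W') (f := Algebra.ofId S K)
      (algebraMap S K).injective x' y').mp hxy
  exact ⟨Affine.Point.some x' y' hns, rfl⟩

end FLTAgent.Torsion
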